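import Fermat.Agent.S16.Theta.Defs
import Fermat.Prelude.Def_FLTPrelim_Modularity

namespace Fermat.Agent.S16.Theta

open Complex Real
open UpperHalfPlane hiding I
open scoped MatrixGroups ModularForm Manifold

/-! ## Poisson (general) -/

theorem GaussPair.summable {n : ℕ} {Q Qd : (Fin n → ℝ) → ℝ} {D : ℝ} (h : GaussPair n Q Qd D)
    {a : ℝ} (ha : 0 < a) (v : Fin n → ℝ) :
    Summable fun x : Fin n → ℤ => Real.exp (-a * Q (fun i => (x i : ℝ) + v i)) := sorry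

theorem GaussPair.summable_dual {n : ℕ} {Q Qd : (Fin n → ℝ) → ℝ} {D : ℝ}
    (h : GaussPair n Q Qd D) {a : ℝ} (ha : 0 < a) (w : Fin n → ℝ) :
    Summable fun x : Fin n → ℤ => Real.exp (-a * Qd (fun i => (x i : ℝ) + w i)) := sorry

theorem GaussPair.poisson {n : ℕ} {Q Qd : (Fin n → ℝ) → ℝ} {D : ℝ} (h : GaussPair n Q Qd D)
    {a : ℂ} (ha : 0 < a.re) (v w : Fin n → ℝ) :
    ∑' x : Fin n → ℤ, cexp (-π * a * (Q (fun i => (x i : ℝ) + v i) : ℝ)
        + 2 * π * I * ∑ i, (w i : ℂ) * ((x i : ℂ) + (v i : ℂ))) =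
      (1 / a ^ (1 / 2 : ℂ)) ^ n / (√D : ℝ) *
        ∑' ξ : Fin n → ℤ, cexp (-π / a * (Qd (fun i => (ξ i : ℝ) + w i) : ℝ)
          - 2 * π * I * ∑ i, (ξ i : ℂ) * (v i : ℂ)) := sorry

/-! ## Poisson for `Q` -/

variable {p : ℕ}

theorem gaussPair_q (D : Data p) (hp : 0 < p) :
    GaussPair 4 D.qR (fun ξ => 4 / (p : ℝ) * D.qdR ξ) ((p : ℝ) ^ 2 / 16) := sorry

theorem summable_exp_qR (D : Data p) (hp : 0 < p) {a : ℝ} (ha : 0 < a) (v : Fin 4 → ℝ) :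
    Summable fun x : Fin 4 → ℤ => Real.exp (-a * D.qR (fun i => (x i : ℝ) + v i)) := sorry

theorem summable_exp_qdR (D : Data p) (hp : 0 < p) {a : ℝ} (ha : 0 < a) (v : Fin 4 → ℝ) :
    Summable fun x : Fin 4 → ℤ => Real.exp (-a * D.qdR (fun i => (x i : ℝ) + v i)) := sorry

theorem theta_inversion (D : Data p) (hp : 0 < p) (τ : ℂ) (hτ : 0 < τ.im) (v : Fin 4 → ℝ) :
    ∑' y : Fin 4 → ℤ, cexp (-2 * π * I * (D.qR (fun i => (y i : ℝ) + v i) : ℝ) / τ) =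
      -τ ^ 2 / p * ∑' ξ : Fin 4 → ℤ,
        cexp (2 * π * I * (D.qd ξ : ℂ) * τ / p - 2 * π * I * ∑ i, (ξ i : ℂ) * (v i : ℂ)) := sorry

/-! ## Summability of the theta terms -/

theorem summable_theta_term (D : Data p) (hp : 0 < p) (z : ℂ) (hz : 0 < z.im) :
    Summable fun x : Fin 4 → ℤ => cexp (2 * π * I * (D.q x : ℂ) * z) := sorry

theorem summable_thetaDual_term (D : Data p) (hp : 0 < p) (z : ℂ) (hz : 0 < z.im) :
    Summable fun x : Fin 4 → ℤ => cexp (2 * π * I * (D.qd x : ℂ) * z) := sorry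

/-! ## positivity -/

theorem q_pos (D : Data p) (hp : 0 < p) (x : Fin 4 → ℤ) (hx : x ≠ 0) : 0 < D.q x := sorry

theorem qd_pos (D : Data p) (hp : 0 < p) (x : Fin 4 → ℤ) (hx : x ≠ 0) : 0 < D.qd x := sorry

/-! ## splitting a lattice sum into residue classes -/

theorem tsum_split (p : ℕ) [NeZero p] {n : ℕ} (F : (Fin n → ℤ) → ℂ) (hF : Summable F) :
    (∀ g : Fin n → ZMod p, Summable fun y : Fin n → ℤ => F (fun i => ((g i).val : ℤ) + p * y i)) ∧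
    ∑' x, F x = ∑ g : Fin n → ZMod p, ∑' y : Fin n → ℤ, F (fun i => ((g i).val : ℤ) + p * y i) :=
  sorry

/-! ## Gauss sums -/

theorem gauss_zero [Fact p.Prime] (hp2 : p ≠ 2) (D : Data p) (a : ZMod p) (ha : a ≠ 0) :
    ∑ g : Fin 4 → ZMod p, ZMod.stdAddChar (a * D.qZ g) = -(p : ℂ) ^ 3 := sorry

theorem gauss_vanish [Fact p.Prime] (D : Data p) (a : ZMod p) (ξ : Fin 4 → ZMod p)
    (hξ : D.bdZ ξ ≠ 0) :
    ∑ g : Fin 4 → ZMod p, ZMod.stdAddChar (a * D.qZ g + ∑ i, ξ i * g i) = 0 := sorry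

theorem gauss_shift [Fact p.Prime] (D : Data p) (a d : ZMod p) (had : a * d = 1)
    (x : Fin 4 → ZMod p) :
    ∑ g : Fin 4 → ZMod p, ZMod.stdAddChar (a * D.qZ g +
        ∑ i, D.bZ x i * g i) =
      ZMod.stdAddChar (-(d * D.qZ x)) * ∑ g : Fin 4 → ZMod p, ZMod.stdAddChar (a * D.qZ g) := sorry

/-! ## the image of the Gram map -/

theorem b_injective (D : Data p) (hp : 0 < p) : Function.Injective D.b := sorry

theorem mem_range_b_iff (D : Data p) (hp : 0 < p) (ξ : Fin 4 → ℤ) :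
    ξ ∈ Set.range D.b ↔ ∀ i, (p : ℤ) ∣ D.bd ξ i := sorry

/-! ## the transformation law for lower-left entry `p` -/

theorem thetaC_trans [Fact p.Prime] (hp2 : p ≠ 2) (D : Data p) (a b d : ℤ)
    (h : a * d - b * p = 1) (τ : ℂ) (hτ : 0 < τ.im) :
    thetaC D ((a * τ + b) / (p * τ + d)) = (p * τ + d) ^ 2 * thetaC D τ := sorry

theorem thetaC_add_one (D : Data p) (z : ℂ) : thetaC D (z + 1) = thetaC D z := sorry

theorem thetaC_S (D : Data p) (hp : 0 < p) (τ : ℂ) (hτ : 0 < τ.im) :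
    thetaC D (-1 / τ) = -τ ^ 2 / p * thetaDualC D (τ / p) := sorry

/-! ## generators of `Γ₀(p)` -/

theorem Gamma0_le_of_mem [Fact p.Prime] (H : Subgroup SL(2, ℤ)) (hT : ModularGroup.T ∈ H)
    (hneg : -1 ∈ H) (hH : ∀ γ : SL(2, ℤ), γ 1 0 = p → γ ∈ H) :
    CongruenceSubgroup.Gamma0 p ≤ H := sorry

/-- coset representatives -/
theorem exists_Gamma0_mul_S_T [Fact p.Prime] (γ : SL(2, ℤ)) (hγ : γ ∉ CongruenceSubgroup.Gamma0 p) :
    ∃ γ₀ ∈ CongruenceSubgroup.Gamma0 p, ∃ j : ℤ, γ = γ₀ * ModularGroup.S * ModularGroup.T ^ j := sorry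

/-! ## analytic facts -/

theorem mdifferentiable_theta (D : Data p) (hp : 0 < p) :
    MDifferentiable 𝓘(ℂ) 𝓘(ℂ) (theta D) := sorry

theorem rep_zero (D : Data p) (hp : 0 < p) : D.rep 0 = 1 := sorry

theorem even_rep (D : Data p) (hp : 0 < p) (m : ℕ) (hm : 1 ≤ m) : Even (D.rep m) := sorry

theorem hasSum_thetaC (D : Data p) (hp : 0 < p) (z : ℂ) (hz : 0 < z.im) :
    HasSum (fun m : ℕ => (D.rep m : ℂ) * cexp (2 * π * I * z) ^ m) (thetaC D z) := sorry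

theorem hasSum_thetaDualC (D : Data p) (hp : 0 < p) (z : ℂ) (hz : 0 < z.im) :
    HasSum (fun m : ℕ => (D.repd m : ℂ) * cexp (2 * π * I * z) ^ m) (thetaDualC D z) := sorry

/-! ## slash invariance and cusps -/

theorem theta_slash_of_mem [Fact p.Prime] (hp2 : p ≠ 2) (D : Data p) (γ : SL(2, ℤ))
    (hγ : γ ∈ CongruenceSubgroup.Gamma0 p) : theta D ∣[(2 : ℤ)] γ = theta D := sorry

theorem theta_slash_S (D : Data p) (hp : 0 < p) :
    theta D ∣[(2 : ℤ)] ModularGroup.S = fun τ : ℍ => -(1 / (p : ℂ)) * thetaDualC D ((τ : ℂ) / p) :=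
  sorry

theorem isBoundedAtImInfty_theta_slash [Fact p.Prime] (hp2 : p ≠ 2) (D : Data p) (γ : SL(2, ℤ)) :
    IsBoundedAtImInfty (theta D ∣[(2 : ℤ)] γ) := sorry

/-! ## existence of lattice data -/

theorem exists_data [Fact p.Prime] (hp2 : p ≠ 2) : Nonempty (Data p) := sorry

/-! ## final -/

theorem exists_theta [Fact p.Prime] (hp2 : p ≠ 2) :
    ∃ G : ModularForm (CongruenceSubgroup.Gamma0 p) 2,
      ModularFormClass.qCoeff G 0 = 1 ∧
      ∀ k : ℕ, 1 ≤ k → ∃ m : ℤ, ModularFormClass.qCoeff G k = 2 * (m : ℂ) := sorry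

end Fermat.Agent.S16.Theta
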